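import Mathlib

/-!
# S16, stream [C]: integrality of the level-one generators `E₄`, `E₆`, `Δ`

`qExpansion 1 E₄`, `qExpansion 1 E₆`, `qExpansion 1 Δ` are the images of explicit power series
with integer coefficients: `1 + 240 ∑ σ₃(n) qⁿ`, `1 - 504 ∑ σ₅(n) qⁿ`, and
`D = (P₄³ - P₆²)/1728` (using `5 d³ + 7 d⁵ ≡ 0 mod 12`), `D = X * U` with `U(0) = 1`.
-/

set_option autoImplicit false

namespace Fermat.Agent.S16C

open UpperHalfPlane ModularForm ModularFormClass MatrixGroups EisensteinSeries PowerSeries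

/-- `∑ σ_k(n) Xⁿ` as an integral power series (`σ_k(0) = 0`). -/
noncomputable def lvI_sig (k : ℕ) : PowerSeries ℤ :=
  PowerSeries.mk fun n => (ArithmeticFunction.sigma k n : ℤ)

/-- `1 + 240 ∑ σ₃(n) Xⁿ`. -/
noncomputable def lvI_P4 : PowerSeries ℤ := 1 + 240 * lvI_sig 3

/-- `1 - 504 ∑ σ₅(n) Xⁿ`. -/
noncomputable def lvI_P6 : PowerSeries ℤ := 1 - 504 * lvI_sig 5

lemma lvI_sig_coeff (k n : ℕ) : (lvI_sig k).coeff n = (ArithmeticFunction.sigma k n : ℤ) := by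
  simp [lvI_sig]

lemma lvI_natCast_mul_coeff (c : ℤ) (P : PowerSeries ℤ) (n : ℕ) :
    ((c : PowerSeries ℤ) * P).coeff n = c * P.coeff n := by
  have : ((c : PowerSeries ℤ)) = PowerSeries.C c := by simp
  rw [this, PowerSeries.coeff_C_mul]

lemma lvI_P4_coeff (n : ℕ) :
    lvI_P4.coeff n = if n = 0 then 1 else 240 * (ArithmeticFunction.sigma 3 n : ℤ) := by
  have h : ((240 : PowerSeries ℤ) * lvI_sig 3).coeff n = 240 * (lvI_sig 3).coeff n := by
    have := lvI_natCast_mul_coeff 240 (lvI_sig 3) n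
    simpa using this
  rw [lvI_P4, map_add, h, lvI_sig_coeff, PowerSeries.coeff_one]
  split_ifs with hn
  · subst hn; simp
  · simp

lemma lvI_P6_coeff (n : ℕ) :
    lvI_P6.coeff n = if n = 0 then 1 else -504 * (ArithmeticFunction.sigma 5 n : ℤ) := by
  have h : ((504 : PowerSeries ℤ) * lvI_sig 5).coeff n = 504 * (lvI_sig 5).coeff n := by
    have := lvI_natCast_mul_coeff 504 (lvI_sig 5) n
    simpa using this
  rw [lvI_P6, map_sub, h, lvI_sig_coeff, PowerSeries.coeff_one]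
  split_ifs with hn
  · subst hn; simp
  · simp

/-- The `q`-expansion of `E₄` has integer coefficients. -/
theorem lvI_E4_qExp : qExpansion 1 E₄ = lvI_P4.map (Int.castRingHom ℂ) := by
  ext n
  rw [E_qExpansion_coeff _ ⟨2, rfl⟩, PowerSeries.coeff_map, lvI_P4_coeff]
  split_ifs with hn
  · simp
  · norm_num [show bernoulli 4 = -1 / 30 by decide +kernel]

/-- The `q`-expansion of `E₆` has integer coefficients. -/
theorem lvI_E6_qExp : qExpansion 1 E₆ = lvI_P6.map (Int.castRingHom ℂ) := by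
  ext n
  rw [E_qExpansion_coeff _ ⟨3, rfl⟩, PowerSeries.coeff_map, lvI_P6_coeff]
  split_ifs with hn
  · simp
  · norm_num [show bernoulli 6 = 1 / 42 by decide +kernel]


/-! ### The discriminant -/

lemma lvI_zmod12 : ∀ x : ZMod 12, 5 * x ^ 3 + 7 * x ^ 5 = 0 := by decide

lemma lvI_twelve_dvd (d : ℕ) : (12 : ℤ) ∣ 5 * (d : ℤ) ^ 3 + 7 * (d : ℤ) ^ 5 := by
  have h := lvI_zmod12 (d : ZMod 12)
  have h' : ((5 * (d : ℤ) ^ 3 + 7 * (d : ℤ) ^ 5 : ℤ) : ZMod 12) = 0 := by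
    push_cast
    exact h
  exact (ZMod.intCast_zmod_eq_zero_iff_dvd _ 12).mp h'

lemma lvI_twelve_dvd_sigma (n : ℕ) :
    (12 : ℤ) ∣ 5 * (ArithmeticFunction.sigma 3 n : ℤ) + 7 * (ArithmeticFunction.sigma 5 n : ℤ) := by
  rw [ArithmeticFunction.sigma_apply, ArithmeticFunction.sigma_apply]
  push_cast
  rw [Finset.mul_sum, Finset.mul_sum, ← Finset.sum_add_distrib]
  exact Finset.dvd_sum fun d _ => lvI_twelve_dvd d

/-- `(5 ∑ σ₃ + 7 ∑ σ₅)/12`. -/
noncomputable def lvI_C : PowerSeries ℤ :=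
  PowerSeries.mk fun n =>
    (5 * (ArithmeticFunction.sigma 3 n : ℤ) + 7 * (ArithmeticFunction.sigma 5 n : ℤ)) / 12

lemma lvI_C_spec : (12 : PowerSeries ℤ) * lvI_C = 5 * lvI_sig 3 + 7 * lvI_sig 5 := by
  ext n
  have h12 := lvI_natCast_mul_coeff 12 lvI_C n
  have h5 := lvI_natCast_mul_coeff 5 (lvI_sig 3) n
  have h7 := lvI_natCast_mul_coeff 7 (lvI_sig 5) n
  simp only [Int.cast_ofNat] at h12 h5 h7
  rw [h12, map_add, h5, h7, lvI_sig_coeff, lvI_sig_coeff]
  simp only [lvI_C, PowerSeries.coeff_mk]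
  exact Int.mul_ediv_cancel' (lvI_twelve_dvd_sigma n)

/-- The integral power series `D` with `1728 D = P₄³ - P₆²`. -/
noncomputable def lvI_D : PowerSeries ℤ :=
  lvI_C + 100 * lvI_sig 3 ^ 2 + 8000 * lvI_sig 3 ^ 3 - 147 * lvI_sig 5 ^ 2

lemma lvI_P4P6 : lvI_P4 ^ 3 - lvI_P6 ^ 2 = 1728 * lvI_D := by
  have h := lvI_C_spec
  simp only [lvI_P4, lvI_P6, lvI_D]
  linear_combination (-144 : PowerSeries ℤ) * h

/-- `E₄³ - E₆²` as a level one form of weight 12. -/
noncomputable def lvI_F12 : ModularForm 𝒮ℒ 12 :=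
  ModularForm.mcast (by decide) (E₄.pow 3) - ModularForm.mcast (by decide) (E₆.pow 2)

lemma lvI_F12_qExp :
    qExpansion 1 lvI_F12 = qExpansion 1 E₄ ^ 3 - qExpansion 1 E₆ ^ 2 := by
  simp only [lvI_F12, FunLike.coe_sub, coe_mcast,
    ModularForm.qExpansion_sub one_pos one_mem_strictPeriods_SL,
    ModularForm.qExpansion_pow one_pos one_mem_strictPeriods_SL]

lemma lvI_F12_eq : (lvI_F12 : ℍ → ℂ) = ((1728 : ℂ) • CuspForm.discriminant : ℍ → ℂ) := by
  funext z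
  have h := discriminant_eq_E₄_cube_sub_E₆_sq z
  have h1 : lvI_F12 z = E₄ z ^ 3 - E₆ z ^ 2 := by
    simp only [lvI_F12, coe_mcast, ModularForm.coe_pow, sub_apply, Pi.pow_apply]
  rw [h1]
  change _ = (1728 : ℂ) * ModularForm.discriminant z
  rw [h]; ring

/-- The `q`-expansion of `Δ` has integer coefficients. -/
theorem lvI_Delta_qExp :
    qExpansion 1 ModularForm.discriminant = lvI_D.map (Int.castRingHom ℂ) := by
  have h1 : qExpansion 1 lvI_F12 = (1728 : ℂ) • qExpansion 1 CuspForm.discriminant := by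
    rw [lvI_F12_eq]
    exact ModularForm.qExpansion_smul one_pos one_mem_strictPeriods_SL (1728 : ℂ)
      CuspForm.discriminant
  rw [lvI_F12_qExp, lvI_E4_qExp, lvI_E6_qExp, ← map_pow, ← map_pow, ← map_sub, lvI_P4P6,
    map_mul] at h1
  have h2 : (PowerSeries.map (Int.castRingHom ℂ)) (1728 : PowerSeries ℤ) = (1728 : PowerSeries ℂ) :=
    map_ofNat (PowerSeries.map (Int.castRingHom ℂ)) 1728
  rw [h2] at h1
  have h3 : ((1728 : PowerSeries ℂ)) * (PowerSeries.map (Int.castRingHom ℂ)) lvI_D =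
      (1728 : ℂ) • (PowerSeries.map (Int.castRingHom ℂ)) lvI_D := by
    ext n
    have : ((1728 : PowerSeries ℂ)) = PowerSeries.C (1728 : ℂ) :=
      (map_ofNat (PowerSeries.C (R := ℂ)) 1728).symm
    rw [this, PowerSeries.coeff_C_mul, PowerSeries.coeff_smul, smul_eq_mul]
  rw [h3] at h1
  have hinj := smul_right_injective (PowerSeries ℂ) (show (1728 : ℂ) ≠ 0 by norm_num)
  have := hinj h1
  rw [← CuspForm.coe_discriminant]
  exact this.symm


/-! ### Contract forms for the induction (`LevelOne/Sturm.lean`) -/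

/-- The subring of `ℂ⟦X⟧` of power series with integer coefficients. -/
noncomputable def lvI_Z : Subring (PowerSeries ℂ) := (PowerSeries.map (Int.castRingHom ℂ)).range

lemma lvI_mem_Z_iff {φ : PowerSeries ℂ} :
    φ ∈ lvI_Z ↔ ∃ P : PowerSeries ℤ, P.map (Int.castRingHom ℂ) = φ := Iff.rfl

lemma lvI_coeff_of_mem_Z {φ : PowerSeries ℂ} (h : φ ∈ lvI_Z) (n : ℕ) :
    ∃ m : ℤ, φ.coeff n = (m : ℂ) := by
  obtain ⟨P, rfl⟩ := h
  exact ⟨P.coeff n, by simp⟩

theorem lvI_E4 : qExpansion 1 E₄ ∈ lvI_Z := ⟨lvI_P4, lvI_E4_qExp.symm⟩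

theorem lvI_E6 : qExpansion 1 E₆ ∈ lvI_Z := ⟨lvI_P6, lvI_E6_qExp.symm⟩

theorem lvI_delta : qExpansion 1 ModularForm.discriminant ∈ lvI_Z := ⟨lvI_D, lvI_Delta_qExp.symm⟩

lemma lvI_D_coeff_zero : lvI_D.coeff 0 = 0 := by
  have h : (qExpansion 1 ModularForm.discriminant).coeff 0 = 0 := by
    have := CuspFormClass.qExpansion_coeff_zero CuspForm.discriminant one_pos
      one_mem_strictPeriods_SL
    simpa using this
  rw [lvI_Delta_qExp, PowerSeries.coeff_map, eq_intCast] at h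
  exact_mod_cast h

lemma lvI_D_coeff_one : lvI_D.coeff 1 = 1 := by
  have h := discriminant_qExpansion_coeff_one
  rw [lvI_Delta_qExp, PowerSeries.coeff_map, eq_intCast] at h
  exact_mod_cast h

/-- `Δ = X * U` with `U ∈ ℤ⟦X⟧`, `U(0) = 1`. -/
theorem lvI_delta_eq_X_mul :
    ∃ U : PowerSeries ℤ, U.coeff 0 = 1 ∧
      qExpansion 1 ModularForm.discriminant =
        PowerSeries.X * U.map (Int.castRingHom ℂ) := by
  have hX : (PowerSeries.X : PowerSeries ℤ) ∣ lvI_D := by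
    rw [PowerSeries.X_dvd_iff]
    simpa using lvI_D_coeff_zero
  obtain ⟨U, hU⟩ := hX
  refine ⟨U, ?_, ?_⟩
  · have h1 := lvI_D_coeff_one
    rw [hU, show (1 : ℕ) = 0 + 1 from rfl, PowerSeries.coeff_succ_X_mul] at h1
    exact h1
  · rw [lvI_Delta_qExp, hU, map_mul, PowerSeries.map_X]

lemma lvI_P4_coeff_zero : lvI_P4.coeff 0 = 1 := by rw [lvI_P4_coeff]; simp

lemma lvI_P6_coeff_zero : lvI_P6.coeff 0 = 1 := by rw [lvI_P6_coeff]; simp

/-- The form `E₄^a E₆^b` of weight `4a + 6b`. -/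
noncomputable def lvI_mono (a b : ℕ) : ModularForm 𝒮ℒ ((a : ℤ) * 4 + (b : ℤ) * 6) :=
  (E₄.pow a).mul (E₆.pow b)

lemma lvI_mono_qExp (a b : ℕ) :
    qExpansion 1 (lvI_mono a b) = (lvI_P4 ^ a * lvI_P6 ^ b).map (Int.castRingHom ℂ) := by
  rw [lvI_mono, ModularForm.qExpansion_mul one_pos one_mem_strictPeriods_SL,
    ModularForm.qExpansion_pow one_pos one_mem_strictPeriods_SL,
    ModularForm.qExpansion_pow one_pos one_mem_strictPeriods_SL, lvI_E4_qExp, lvI_E6_qExp,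
    map_mul, map_pow, map_pow]

lemma lvI_mono_mem (a b : ℕ) : qExpansion 1 (lvI_mono a b) ∈ lvI_Z :=
  ⟨_, (lvI_mono_qExp a b).symm⟩

lemma lvI_mono_coeff_zero (a b : ℕ) : (qExpansion 1 (lvI_mono a b)).coeff 0 = 1 := by
  rw [lvI_mono_qExp, PowerSeries.coeff_map, PowerSeries.coeff_zero_eq_constantCoeff_apply,
    map_mul, map_pow, map_pow, ← PowerSeries.coeff_zero_eq_constantCoeff_apply,
    ← PowerSeries.coeff_zero_eq_constantCoeff_apply, lvI_P4_coeff_zero, lvI_P6_coeff_zero]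
  simp

/-- For every even weight `k ≠ 2` there is a level-one form with integral `q`-expansion and
constant term `1`. -/
theorem lvI_exists_form (k : ℕ) (hk : Even k) (hk2 : k ≠ 2) :
    ∃ F : ModularForm 𝒮ℒ (k : ℤ), qExpansion 1 F ∈ lvI_Z ∧ (qExpansion 1 F).coeff 0 = 1 := by
  obtain ⟨a, b, hab⟩ : ∃ a b : ℕ, a * 4 + b * 6 = k := by
    obtain ⟨m, hm⟩ := hk
    rcases Nat.even_or_odd' m with ⟨j, hj | hj⟩
    · exact ⟨j, 0, by omega⟩
    · refine ⟨j - 1, 1, ?_⟩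
      have : 1 ≤ j := by
        by_contra h
        have : j = 0 := by omega
        omega
      omega
  have hw : ((a : ℤ) * 4 + (b : ℤ) * 6) = (k : ℤ) := by exact_mod_cast hab
  refine ⟨ModularForm.mcast hw (lvI_mono a b), ?_, ?_⟩
  · rw [ModularForm.qExpansion_mcast]
    exact lvI_mono_mem a b
  · rw [ModularForm.qExpansion_mcast]
    exact lvI_mono_coeff_zero a b

end Fermat.Agent.S16C
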