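/-
S16, stream [C]/(B-place): a "prime above `ℓ`" inside `ℂ` and reduction of power series.

For a prime `ℓ` there is a valuation subring `B ⊆ ℂ` whose maximal ideal contains `ℓ`.
For ANY such `B`: integers lie in `B`, integers prime to `ℓ` are units of `B`, elements
integral over `ℤ` (e.g. roots of unity) lie in `B`, the residue field `κ` has characteristic `ℓ`.
The maximal ideal is packaged as an additive subgroup `lvP_mI B` of `ℂ` (the form consumed by the
level-one Sturm lemma `lvS_coeff_mem_of`), and `B`-integral power series over `ℂ` are reduced to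
`κ⟦X⟧` by the TOTAL function `lvP_red B` (multiplicative on `B`-integral series).
Only Mathlib is imported.
-/
import Mathlib

set_option autoImplicit false

open IsLocalRing

namespace Fermat.Agent.S16C

/-! ### Existence -/

/-- **Existence of a place of `ℂ` above `ℓ`.** -/
theorem lvP_exists (l : ℕ) (hl : l.Prime) :
    ∃ B : ValuationSubring ℂ, ((l : ℕ) : ℂ) ∈ B.nonunits := by
  classical
  let A : Subring ℂ := (Int.castRingHom ℂ).range
  have hlA : ((l : ℕ) : ℂ) ∈ A := ⟨(l : ℤ), by simp⟩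
  let I : Ideal A := Ideal.span {⟨((l : ℕ) : ℂ), hlA⟩}
  have hI : I ≠ ⊤ := by
    intro h
    rw [Ideal.eq_top_iff_one, Ideal.mem_span_singleton'] at h
    obtain ⟨⟨a, m, rfl⟩, ha⟩ := h
    have h1 : ((m * (l : ℤ) : ℤ) : ℂ) = ((1 : ℤ) : ℂ) := by
      have := congrArg Subtype.val ha
      push_cast
      simpa using this
    have h2 : m * (l : ℤ) = 1 := by exact_mod_cast h1
    have h3 : IsUnit (l : ℤ) := IsUnit.of_mul_eq_one m (by rw [mul_comm]; exact h2)
    have h4 : (l : ℤ).natAbs = 1 := Int.isUnit_iff_natAbs_eq.mp h3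
    simp only [Int.natAbs_natCast] at h4
    exact hl.one_lt.ne' h4
  obtain ⟨B, -, hB⟩ := Ideal.image_subset_nonunits_valuationSubring I hI
  exact ⟨B, hB ⟨⟨_, hlA⟩, Ideal.subset_span rfl, rfl⟩⟩

/-! ### Membership facts, for any `B` with `ℓ` in its maximal ideal -/

section Facts

variable (B : ValuationSubring ℂ)

theorem lvP_int_mem (m : ℤ) : (m : ℂ) ∈ B := intCast_mem B m

theorem lvP_nat_mem (m : ℕ) : (m : ℂ) ∈ B := natCast_mem B m

/-- The maximal ideal of `B`, as an additive subgroup of `ℂ`. -/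
noncomputable def lvP_mI : AddSubgroup ℂ := B.nonunits.toAddSubgroup

theorem lvP_mem_mI_iff {x : ℂ} : x ∈ lvP_mI B ↔ x ∈ B.nonunits := Iff.rfl

theorem lvP_mem_mI_iff_val {x : ℂ} : x ∈ lvP_mI B ↔ B.valuation x < 1 :=
  B.mem_nonunits_iff

theorem lvP_mI_le {x : ℂ} (hx : x ∈ lvP_mI B) : x ∈ B := B.nonunits_subset hx

theorem lvP_one_not_mem_mI : (1 : ℂ) ∉ lvP_mI B := by
  rw [lvP_mem_mI_iff_val, map_one]
  exact lt_irrefl _

/-- The maximal ideal absorbs multiplication by `B`. -/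
theorem lvP_mul_mem_mI {b x : ℂ} (hb : b ∈ B) (hx : x ∈ lvP_mI B) : b * x ∈ lvP_mI B := by
  rw [lvP_mem_mI_iff_val] at hx ⊢
  rw [map_mul]
  have hb' : B.valuation b ≤ 1 := (B.valuation_le_one_iff b).mpr hb
  exact mul_lt_one_of_nonneg_of_lt_one_right hb' zero_le hx

theorem lvP_mul_mem_mI' {b x : ℂ} (hx : x ∈ lvP_mI B) (hb : b ∈ B) : x * b ∈ lvP_mI B := by
  rw [mul_comm]; exact lvP_mul_mem_mI B hb hx

/-- An element of `B` outside the maximal ideal has its inverse in `B`. -/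
theorem lvP_inv_mem_of_not_mem_mI {x : ℂ} (hx : x ∈ B) (hx' : x ∉ lvP_mI B) : x⁻¹ ∈ B := by
  rw [lvP_mem_mI_iff_val, not_lt] at hx'
  have h1 : B.valuation x = 1 := le_antisymm ((B.valuation_le_one_iff x).mpr hx) hx'
  rw [← B.valuation_le_one_iff, map_inv₀, h1, inv_one]

theorem lvP_inv_not_mem_mI {x : ℂ} (hx : x ∈ B) (hx' : x ∉ lvP_mI B) : x⁻¹ ∉ lvP_mI B := by
  rw [lvP_mem_mI_iff_val, not_lt] at hx' ⊢
  have h1 : B.valuation x = 1 := le_antisymm ((B.valuation_le_one_iff x).mpr hx) hx'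
  rw [map_inv₀, h1, inv_one]

/-- Elements integral over `ℤ` lie in `B`. -/
theorem lvP_mem_of_isIntegral {x : ℂ} (hx : IsIntegral ℤ x) : x ∈ B := by
  have hx' : IsIntegral B x := hx.tower_top
  obtain ⟨y, hy⟩ := (IsIntegrallyClosed.isIntegral_iff (R := B) (K := ℂ)).mp hx'
  rw [← hy]
  exact y.2

/-- Roots of unity lie in `B`. -/
theorem lvP_mem_of_pow_eq_one {z : ℂ} {N : ℕ} (hN : 0 < N) (hz : z ^ N = 1) : z ∈ B := by
  apply lvP_mem_of_isIntegral
  refine ⟨Polynomial.X ^ N - 1, Polynomial.monic_X_pow_sub_C (1 : ℤ) hN.ne', ?_⟩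
  simp [hz]

/-- Roots of unity are units: they are not in the maximal ideal. -/
theorem lvP_not_mem_mI_of_pow_eq_one {z : ℂ} {N : ℕ} (hN : 0 < N) (hz : z ^ N = 1) :
    z ∉ lvP_mI B := by
  intro h
  rw [lvP_mem_mI_iff_val] at h
  have h1 : B.valuation z ^ N = 1 := by rw [← map_pow, hz, map_one]
  have : B.valuation z ^ N < 1 := pow_lt_one' h hN.ne'
  exact this.ne h1

variable {B} {l : ℕ} (hl : l.Prime) (hB : ((l : ℕ) : ℂ) ∈ B.nonunits)

include hl hB

/-- An integer lies in the maximal ideal iff it is divisible by `ℓ`. -/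
theorem lvP_int_mem_mI_iff (m : ℤ) : (m : ℂ) ∈ lvP_mI B ↔ (l : ℤ) ∣ m := by
  constructor
  · intro hm
    by_contra hdvd
    have hcop : IsCoprime (l : ℤ) m := by
      rw [Int.isCoprime_iff_gcd_eq_one]
      have hp : Prime (l : ℤ) := Nat.prime_iff_prime_int.mp hl
      exact Int.isCoprime_iff_gcd_eq_one.mp ((Prime.coprime_iff_not_dvd hp).mpr hdvd)
    obtain ⟨u, v, huv⟩ := hcop
    have h1 : ((u : ℂ)) * (l : ℂ) + (v : ℂ) * (m : ℂ) = 1 := by exact_mod_cast congrArg (Int.cast : ℤ → ℂ) huv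
    have h2 : (u : ℂ) * (l : ℂ) + (v : ℂ) * (m : ℂ) ∈ lvP_mI B :=
      (lvP_mI B).add_mem (lvP_mul_mem_mI B (lvP_int_mem B u) hB)
        (lvP_mul_mem_mI B (lvP_int_mem B v) hm)
    rw [h1] at h2
    exact lvP_one_not_mem_mI B h2
  · rintro ⟨k, rfl⟩
    push_cast
    exact lvP_mul_mem_mI' B hB (lvP_int_mem B k)

theorem lvP_nat_mem_mI_iff (m : ℕ) : (m : ℂ) ∈ lvP_mI B ↔ l ∣ m := by
  have := lvP_int_mem_mI_iff hl hB (m : ℤ)
  rw [Int.natCast_dvd_natCast] at this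
  exact_mod_cast this

/-- Integers prime to `ℓ` are units of `B`. -/
theorem lvP_inv_mem_of_not_dvd (s : ℤ) (hs : ¬ (l : ℤ) ∣ s) : (s : ℂ)⁻¹ ∈ B :=
  lvP_inv_mem_of_not_mem_mI B (lvP_int_mem B s) (fun h => hs ((lvP_int_mem_mI_iff hl hB s).mp h))

theorem lvP_inv_not_mem_mI_of_not_dvd (s : ℤ) (hs : ¬ (l : ℤ) ∣ s) : (s : ℂ)⁻¹ ∉ lvP_mI B :=
  lvP_inv_not_mem_mI B (lvP_int_mem B s) (fun h => hs ((lvP_int_mem_mI_iff hl hB s).mp h))

/-- `ℓ`-integral rationals lie in `B`. -/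
theorem lvP_rat_mem (r : ℚ) (hr : ¬ l ∣ r.den) : (r : ℂ) ∈ B := by
  have : (r : ℂ) = (r.num : ℂ) * ((r.den : ℤ) : ℂ)⁻¹ := by
    rw [Rat.cast_def, div_eq_mul_inv]; simp
  rw [this]
  exact B.mul_mem _ _ (lvP_int_mem B _)
    (lvP_inv_mem_of_not_dvd hl hB _ (by rwa [Int.natCast_dvd_natCast]))

/-- The residue field of `B` has characteristic `ℓ`. -/
theorem lvP_charP : CharP (ResidueField B) l := by
  have h0 : ((l : ℕ) : ResidueField B) = 0 := by
    have hmem : (⟨(l : ℂ), lvP_nat_mem B l⟩ : B) ∈ maximalIdeal B :=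
      (B.coe_mem_nonunits_iff).mp hB
    have := (IsLocalRing.residue_eq_zero_iff (⟨(l : ℂ), lvP_nat_mem B l⟩ : B)).mpr hmem
    have hcast : (⟨(l : ℂ), lvP_nat_mem B l⟩ : B) = ((l : ℕ) : B) := by
      ext; simp
    rw [hcast, map_natCast] at this
    exact this
  exact (CharP.charP_iff_prime_eq_zero hl).mpr h0

end Facts

end Fermat.Agent.S16C
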