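import Fermat.Agent.S16.LevelOne.Sturm
import Fermat.Agent.S16.LevelOne.IntCoeff

/-!
# S16 stream [C]: the integral (Miller-basis) Sturm bound at level one, unconditional

`lvS_coeff_mem` : for an additive subgroup `I ≤ ℂ` and a level-one modular form `f` of weight
`k : ℕ`, if `a_n(f) ∈ I` for all `n ≤ k / 12`, then `a_n(f) ∈ I` for all `n`.
`lvS_exists_le` : contrapositive (consumer form).
Plug of `LevelOne/Sturm.lean` (induction) with `LevelOne/IntCoeff.lean` (integrality of `Δ`,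
`E₄^a E₆^b`).
-/

set_option autoImplicit false

open UpperHalfPlane ModularForm ModularFormClass MatrixGroups

namespace Fermat.Agent.S16C

theorem lvS_deltaInt : LvSDeltaInt := fun n => lvI_coeff_of_mem_Z lvI_delta n

theorem lvS_unitForms : LvSUnitForms := by
  intro k hk hk2
  obtain ⟨F, hF, hF0⟩ := lvI_exists_form k hk hk2
  exact ⟨F, hF0, fun n => lvI_coeff_of_mem_Z hF n⟩

/-- **Integral Sturm bound at level one.** -/
theorem lvS_coeff_mem (I : AddSubgroup ℂ) {k : ℕ} (f : ModularForm 𝒮ℒ (k : ℤ))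
    (h : ∀ n ≤ k / 12, (qExpansion 1 f).coeff n ∈ I) : ∀ n, (qExpansion 1 f).coeff n ∈ I :=
  lvS_coeff_mem_of lvS_deltaInt lvS_unitForms I k f h

/-- Consumer form: a coefficient outside `I` forces one of index `≤ k / 12` outside `I`. -/
theorem lvS_exists_le (I : AddSubgroup ℂ) {k : ℕ} (f : ModularForm 𝒮ℒ (k : ℤ)) {n₀ : ℕ}
    (hn₀ : (qExpansion 1 f).coeff n₀ ∉ I) : ∃ n ≤ k / 12, (qExpansion 1 f).coeff n ∉ I :=
  lvS_exists_le_of lvS_deltaInt lvS_unitForms I f hn₀

end Fermat.Agent.S16C
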