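import Fermat.Agent.S16.LevelOne.SturmMain

/-!
# S16 stream [C] → [B] adapter: the level-one Sturm bound modulo a place

For a valuation subring `B` of `ℂ` (a "place above `ℓ`") and a level-one form `F` of weight `k`:
* `lvA_coeff_mem_nonunits` : if `a_n(F) ∈ 𝔪_B` for all `n ≤ k/12` then `a_n(F) ∈ 𝔪_B` for all `n`;
* `lvA_order_le` : if `qExpansion 1 F` is the image of `P ∈ B⟦X⟧` and the reduction `P̄ ∈ κ_B⟦X⟧`
  is nonzero, then `order P̄ ≤ k/12`;
* `lvA_red_eq_zero` : contrapositive form, `k/12 < order P̄ → P̄ = 0`.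
Only Mathlib vocabulary (`ValuationSubring`, `IsLocalRing.residue`), so it is usable with any
"place" file.
-/

set_option autoImplicit false

open UpperHalfPlane ModularForm ModularFormClass MatrixGroups

namespace Fermat.Agent.S16C

/-- The maximal ideal of `B`, as an additive subgroup of `ℂ`. -/
noncomputable def lvA_mI (B : ValuationSubring ℂ) : AddSubgroup ℂ := B.nonunits.toAddSubgroup

lemma lvA_mem_mI_iff (B : ValuationSubring ℂ) {x : ℂ} : x ∈ lvA_mI B ↔ x ∈ B.nonunits := Iff.rfl

lemma lvA_mem_mI_iff_val (B : ValuationSubring ℂ) {x : ℂ} :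
    x ∈ lvA_mI B ↔ B.valuation x < 1 := Iff.rfl

/-- Sturm bound modulo the maximal ideal of a valuation subring of `ℂ`. -/
theorem lvA_coeff_mem_nonunits (B : ValuationSubring ℂ) {k : ℕ} (F : ModularForm 𝒮ℒ (k : ℤ))
    (h : ∀ n ≤ k / 12, (qExpansion 1 F).coeff n ∈ B.nonunits) :
    ∀ n, (qExpansion 1 F).coeff n ∈ B.nonunits :=
  lvS_coeff_mem (lvA_mI B) F h

/-- residue of an element of `B` vanishes iff its image in `ℂ` is a nonunit of `B`. -/
lemma lvA_residue_eq_zero_iff (B : ValuationSubring ℂ) (x : B) :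
    IsLocalRing.residue B x = 0 ↔ (x : ℂ) ∈ B.nonunits := by
  rw [IsLocalRing.residue_eq_zero_iff, ValuationSubring.coe_mem_nonunits_iff]

/-- If the reduction of the (`B`-integral) `q`-expansion of a level-one form of weight `k`
vanishes to order `> k/12`, it vanishes identically. -/
theorem lvA_red_eq_zero (B : ValuationSubring ℂ) {k : ℕ} (F : ModularForm 𝒮ℒ (k : ℤ))
    (P : PowerSeries B) (hP : P.map B.subtype = qExpansion 1 F)
    (hord : ((k / 12 : ℕ) : ℕ∞) < (P.map (IsLocalRing.residue B)).order) :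
    P.map (IsLocalRing.residue B) = 0 := by
  have hc : ∀ n, (qExpansion 1 F).coeff n = ((P.coeff n : B) : ℂ) := by
    intro n
    rw [← hP, PowerSeries.coeff_map]
    rfl
  have hlow : ∀ n ≤ k / 12, (qExpansion 1 F).coeff n ∈ B.nonunits := by
    intro n hn
    have h0 : (P.map (IsLocalRing.residue B)).coeff n = 0 :=
      PowerSeries.coeff_of_lt_order _ (lt_of_le_of_lt (by exact_mod_cast hn) hord)
    rw [PowerSeries.coeff_map] at h0
    rw [hc n]
    exact (lvA_residue_eq_zero_iff B _).mp h0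
  have hall := lvA_coeff_mem_nonunits B F hlow
  ext n
  rw [PowerSeries.coeff_map, map_zero]
  apply (lvA_residue_eq_zero_iff B _).mpr
  rw [← hc n]
  exact hall n

/-- Order form of the Sturm bound modulo a place. -/
theorem lvA_order_le (B : ValuationSubring ℂ) {k : ℕ} (F : ModularForm 𝒮ℒ (k : ℤ))
    (P : PowerSeries B) (hP : P.map B.subtype = qExpansion 1 F)
    (hne : P.map (IsLocalRing.residue B) ≠ 0) :
    (P.map (IsLocalRing.residue B)).order ≤ ((k / 12 : ℕ) : ℕ∞) := by
  by_contra hcon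
  exact hne (lvA_red_eq_zero B F P hP (not_le.mp hcon))

end Fermat.Agent.S16C
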