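import Mathlib

/-
S16 stream [C]: integral Miller basis / level-one Sturm bound for an arbitrary additive
subgroup of `ℂ`.  Main results: `s16c_coeff_mem`, `s16c_exists_le`; integrality of the
`q`-expansions of `E₄`, `E₆`, `Δ`: `s16c_qExp_E4`, `s16c_qExp_E6`, `s16c_qExp_Delta`.
-/

open UpperHalfPlane ModularForm ModularFormClass MatrixGroups EisensteinSeries

namespace Fermat.Agent.S16c

open ArithmeticFunction in
lemma s16c_twelve_dvd (n : ℕ) : (12 : ℤ) ∣ 5 * (sigma 3 n : ℤ) + 7 * (sigma 5 n : ℤ) := by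
  have key : ∀ d : ℕ, (12 : ℤ) ∣ 5 * (d : ℤ) ^ 3 + 7 * (d : ℤ) ^ 5 := by
    intro d
    have h : ∀ x : ZMod 12, 5 * x ^ 3 + 7 * x ^ 5 = 0 := by decide
    have h2 : ((5 * (d : ℤ) ^ 3 + 7 * (d : ℤ) ^ 5 : ℤ) : ZMod 12) = 0 := by
      push_cast
      simpa using h (d : ZMod 12)
    exact (ZMod.intCast_zmod_eq_zero_iff_dvd _ 12).mp h2
  simp only [sigma_apply, Nat.cast_sum, Nat.cast_pow, Finset.mul_sum]
  rw [← Finset.sum_add_distrib]
  exact Finset.dvd_sum fun d _ => key d

open ArithmeticFunction in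
/-- `∑ σ₃(n) qⁿ` over `ℤ` -/
noncomputable def s16c_A : PowerSeries ℤ := PowerSeries.mk fun n => (sigma 3 n : ℤ)
open ArithmeticFunction in
/-- `∑ σ₅(n) qⁿ` over `ℤ` -/
noncomputable def s16c_B : PowerSeries ℤ := PowerSeries.mk fun n => (sigma 5 n : ℤ)
open ArithmeticFunction in
/-- `∑ (5σ₃(n)+7σ₅(n))/12 qⁿ` over `ℤ` -/
noncomputable def s16c_C : PowerSeries ℤ :=
  PowerSeries.mk fun n => (5 * (sigma 3 n : ℤ) + 7 * (sigma 5 n : ℤ)) / 12

lemma s16c_twelve_C : (12 : PowerSeries ℤ) * s16c_C = 5 * s16c_A + 7 * s16c_B := by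
  ext n
  have h12 : (12 : PowerSeries ℤ) = PowerSeries.C (12 : ℤ) := by simp
  have h5 : (5 : PowerSeries ℤ) = PowerSeries.C (5 : ℤ) := by simp
  have h7 : (7 : PowerSeries ℤ) = PowerSeries.C (7 : ℤ) := by simp
  rw [h12, h5, h7, map_add, PowerSeries.coeff_C_mul, PowerSeries.coeff_C_mul,
    PowerSeries.coeff_C_mul]
  simp only [s16c_A, s16c_B, s16c_C, PowerSeries.coeff_mk]
  exact Int.mul_ediv_cancel' (s16c_twelve_dvd n)

/-- integral `E₄` -/
noncomputable def s16c_P4 : PowerSeries ℤ := 1 + 240 * s16c_A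
/-- integral `E₆` -/
noncomputable def s16c_P6 : PowerSeries ℤ := 1 - 504 * s16c_B
/-- integral `Δ` -/
noncomputable def s16c_T : PowerSeries ℤ :=
  s16c_C + 100 * s16c_A ^ 2 + 8000 * s16c_A ^ 3 - 147 * s16c_B ^ 2

lemma s16c_P4P6T : s16c_P4 ^ 3 - s16c_P6 ^ 2 = 1728 * s16c_T := by
  have h := s16c_twelve_C
  simp only [s16c_P4, s16c_P6, s16c_T]
  linear_combination (-144 : PowerSeries ℤ) * h

lemma s16c_A_coeff_zero : s16c_A.coeff 0 = 0 := by simp [s16c_A]
lemma s16c_B_coeff_zero : s16c_B.coeff 0 = 0 := by simp [s16c_B]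
lemma s16c_A_coeff_one : s16c_A.coeff 1 = 1 := by simp [s16c_A]
lemma s16c_B_coeff_one : s16c_B.coeff 1 = 1 := by simp [s16c_B]


local notation "ι" => PowerSeries.map (Int.castRingHom ℂ)

lemma s16c_qExp_E4 : qExpansion 1 E₄ = ι s16c_P4 := by
  ext n
  rw [E_qExpansion_coeff _ ⟨2, rfl⟩]
  simp only [s16c_P4, PowerSeries.coeff_map, map_add, PowerSeries.coeff_one]
  have h240 : (240 : PowerSeries ℤ) = PowerSeries.C (240 : ℤ) := by simp
  rw [h240, PowerSeries.coeff_C_mul]
  simp only [s16c_A, PowerSeries.coeff_mk]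
  split_ifs with h
  · subst h; simp
  · norm_num [show bernoulli 4 = -1 / 30 by decide +kernel]

lemma s16c_qExp_E6 : qExpansion 1 E₆ = ι s16c_P6 := by
  ext n
  rw [E_qExpansion_coeff _ ⟨3, rfl⟩]
  simp only [s16c_P6, PowerSeries.coeff_map, map_sub, PowerSeries.coeff_one]
  have h504 : (504 : PowerSeries ℤ) = PowerSeries.C (504 : ℤ) := by simp
  rw [h504, PowerSeries.coeff_C_mul]
  simp only [s16c_B, PowerSeries.coeff_mk]
  split_ifs with h
  · subst h; simp
  · norm_num [show bernoulli 6 = 1 / 42 by decide +kernel]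

lemma s16c_qExp_Delta : qExpansion 1 ModularForm.discriminant = ι s16c_T := by
  have h1 : (1728 : ℂ) • qExpansion 1 ModularForm.discriminant
      = qExpansion 1 E₄ ^ 3 - qExpansion 1 E₆ ^ 2 := by
    rw [← CuspForm.coe_discriminant,
      ← ModularForm.qExpansion_smul one_pos one_mem_strictPeriods_SL (1728 : ℂ)
        CuspForm.discriminant,
      ← ModularForm.qExpansion_pow one_pos one_mem_strictPeriods_SL E₄ 3,
      ← ModularForm.qExpansion_pow one_pos one_mem_strictPeriods_SL E₆ 2,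
      ← ModularForm.qExpansion_sub one_pos one_mem_strictPeriods_SL (E₄.pow 3) (E₆.pow 2)]
    congr 1
    ext z
    have := discriminant_eq_E₄_cube_sub_E₆_sq z
    simp only [Pi.smul_apply, Pi.sub_apply, smul_eq_mul, CuspForm.coe_discriminant,
      ModularForm.coe_pow, Pi.pow_apply]
    rw [this]; ring
  rw [s16c_qExp_E4, s16c_qExp_E6, ← map_pow, ← map_pow, ← map_sub, s16c_P4P6T, map_mul] at h1
  have h1728 : ι (1728 : PowerSeries ℤ) = PowerSeries.C (1728 : ℂ) := by
    have : (1728 : PowerSeries ℤ) = PowerSeries.C (1728 : ℤ) := by simp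
    rw [this, PowerSeries.map_C]; simp
  rw [h1728, ← PowerSeries.smul_eq_C_mul] at h1
  exact smul_right_injective _ (by norm_num : (1728 : ℂ) ≠ 0) h1


lemma s16c_T_coeff_zero : s16c_T.coeff 0 = 0 := by
  have h := congrArg (fun P => PowerSeries.coeff 0 P) s16c_qExp_Delta
  simp only [PowerSeries.coeff_map] at h
  have h0 : (qExpansion 1 ModularForm.discriminant).coeff 0 = 0 := by
    simpa using CuspFormClass.qExpansion_coeff_zero CuspForm.discriminant one_pos
      one_mem_strictPeriods_SL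
  rw [h0, eq_intCast] at h
  exact_mod_cast h.symm

lemma s16c_T_coeff_one : s16c_T.coeff 1 = 1 := by
  have h := congrArg (fun P => PowerSeries.coeff 1 P) s16c_qExp_Delta
  simp only [PowerSeries.coeff_map] at h
  rw [discriminant_qExpansion_coeff_one, eq_intCast] at h
  exact_mod_cast h.symm

/-- multiplication by an integral power series preserves "coefficients in `I`" -/
lemma s16c_mul_mem (I : AddSubgroup ℂ) (T : PowerSeries ℤ) (Q : PowerSeries ℂ)
    (hQ : ∀ n, Q.coeff n ∈ I) (n : ℕ) : (ι T * Q).coeff n ∈ I := by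
  rw [PowerSeries.coeff_mul]
  refine I.sum_mem fun x _ => ?_
  rw [PowerSeries.coeff_map]
  simpa [zsmul_eq_mul] using I.zsmul_mem (hQ x.2) (T.coeff x.1)

/-- bounded version -/
lemma s16c_mul_mem_le (I : AddSubgroup ℂ) (T : PowerSeries ℤ) (Q : PowerSeries ℂ) (N : ℕ)
    (hQ : ∀ n ≤ N, Q.coeff n ∈ I) (n : ℕ) (hn : n ≤ N) : (ι T * Q).coeff n ∈ I := by
  rw [PowerSeries.coeff_mul]
  refine I.sum_mem fun x hx => ?_
  rw [PowerSeries.coeff_map]
  have hx2 : x.2 ≤ N := by
    have := Finset.HasAntidiagonal.mem_antidiagonal.mp hx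
    omega
  simpa [zsmul_eq_mul] using I.zsmul_mem (hQ x.2 hx2) (T.coeff x.1)

/-- division by an integral power series `q + ⋯` preserves "coefficients in `I`" (bounded) -/
lemma s16c_div_mem (I : AddSubgroup ℂ) (T : PowerSeries ℤ) (hT0 : T.coeff 0 = 0)
    (hT1 : T.coeff 1 = 1) (Q : PowerSeries ℂ) (N : ℕ)
    (h : ∀ n ≤ N + 1, (ι T * Q).coeff n ∈ I) : ∀ n ≤ N, Q.coeff n ∈ I := by
  intro n
  induction n using Nat.strong_induction_on with
  | _ n ih =>
    intro hn
    have h1 := h (n + 1) (by omega)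
    rw [PowerSeries.coeff_mul, Finset.Nat.sum_antidiagonal_eq_sum_range_succ_mk,
      Finset.sum_range_succ', Finset.sum_range_succ'] at h1
    simp only [PowerSeries.coeff_map, hT0, hT1, Int.cast_zero, zero_mul, add_zero,
      Int.cast_one, one_mul, Nat.add_sub_cancel, zero_add, Nat.sub_zero,
      eq_intCast] at h1
    have h2 : ∑ x ∈ Finset.range n, ((T.coeff (x + 1 + 1) : ℤ) : ℂ) *
        Q.coeff (n + 1 - (x + 1 + 1)) ∈ I := by
      refine I.sum_mem fun x hx => ?_
      have hx' := Finset.mem_range.mp hx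
      have := ih (n + 1 - (x + 1 + 1)) (by omega) (by omega)
      simpa [zsmul_eq_mul] using I.zsmul_mem this (T.coeff (x + 1 + 1))
    have := I.sub_mem h1 h2
    simpa using this


/-- for even `k ≠ 2` there is a level-one form of weight `k` with integral `q`-expansion and
constant term `1` (a monomial `E₄^a E₆^b`). -/
lemma s16c_exists_monomial {k : ℕ} (hk : Even k) (hk2 : k ≠ 2) :
    ∃ (G : ModularForm 𝒮ℒ (k : ℤ)) (P : PowerSeries ℤ),
      qExpansion 1 G = ι P ∧ P.coeff 0 = 1 := by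
  obtain ⟨a, b, hab⟩ : ∃ a b : ℕ, 4 * a + 6 * b = k := by
    obtain ⟨m, hm⟩ := hk
    rcases Nat.even_or_odd' m with ⟨c, hc | hc⟩
    · exact ⟨c, 0, by omega⟩
    · exact ⟨c - 1, 1, by omega⟩
  refine ⟨ModularForm.mcast (by push_cast [← hab]; ring) ((E₄.pow a).mul (E₆.pow b)),
    s16c_P4 ^ a * s16c_P6 ^ b, ?_, ?_⟩
  · rw [ModularForm.qExpansion_mcast,
      ModularForm.qExpansion_mul one_pos one_mem_strictPeriods_SL,
      ModularForm.qExpansion_pow one_pos one_mem_strictPeriods_SL,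
      ModularForm.qExpansion_pow one_pos one_mem_strictPeriods_SL,
      s16c_qExp_E4, s16c_qExp_E6, map_mul, map_pow, map_pow]
  · have hA : PowerSeries.constantCoeff s16c_A = 0 := by
      simpa using s16c_A_coeff_zero
    have hB : PowerSeries.constantCoeff s16c_B = 0 := by
      simpa using s16c_B_coeff_zero
    simp [s16c_P4, s16c_P6, hA, hB]


lemma s16c_smul_mem (I : AddSubgroup ℂ) (a : ℂ) (ha : a ∈ I) (P : PowerSeries ℤ) (n : ℕ) :
    (a • ι P).coeff n ∈ I := by
  rw [PowerSeries.coeff_smul, PowerSeries.coeff_map, smul_eq_mul, eq_intCast, mul_comm,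
    ← zsmul_eq_mul]
  exact I.zsmul_mem ha _

/-- **Integral Miller basis / level-one Sturm bound for an arbitrary additive subgroup.**
If the first `k / 12 + 1` `q`-coefficients of a level-one modular form of weight `k` lie in an
additive subgroup `I` of `ℂ`, then all of them do. -/
theorem s16c_coeff_mem (I : AddSubgroup ℂ) : ∀ (k : ℕ) (f : ModularForm 𝒮ℒ (k : ℤ)),
    (∀ n ≤ k / 12, (qExpansion 1 f).coeff n ∈ I) → ∀ n, (qExpansion 1 f).coeff n ∈ I := by
  intro k
  induction k using Nat.strong_induction_on with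
  | _ k ih =>
  intro f h
  rcases Nat.even_or_odd k with hk | hk
  swap
  · have hf : f = 0 := ModularForm.levelOne_odd_weight_eq_zero (by exact_mod_cast hk) f
    subst hf
    intro n
    simp [qExpansion_zero]
  by_cases hk2 : k = 2
  · subst hk2
    have hf : f = 0 := rank_zero_iff_forall_zero.mp levelOne_weight_two_rank_zero f
    subst hf
    intro n
    simp [qExpansion_zero]
  obtain ⟨G, P, hG, hP0⟩ := s16c_exists_monomial hk hk2
  have ha₀ : (qExpansion 1 f).coeff 0 ∈ I := h 0 (Nat.zero_le _)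
  set a₀ : ℂ := (qExpansion 1 f).coeff 0 with ha₀def
  obtain ⟨g, hgdef⟩ : ∃ g : ModularForm 𝒮ℒ (k : ℤ), g = f - a₀ • G := ⟨_, rfl⟩
  have hg : qExpansion 1 g = qExpansion 1 f - a₀ • ι P := by
    rw [hgdef, FunLike.coe_sub,
      ModularForm.qExpansion_sub one_pos one_mem_strictPeriods_SL f (a₀ • G),
      FunLike.coe_smul,
      ModularForm.qExpansion_smul one_pos one_mem_strictPeriods_SL a₀ G, hG]
  have hg0 : (qExpansion 1 g).coeff 0 = 0 := by
    rw [hg, map_sub, PowerSeries.coeff_smul, PowerSeries.coeff_map, hP0]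
    simp [a₀]
  have hgle : ∀ n ≤ k / 12, (qExpansion 1 g).coeff n ∈ I := fun n hn => by
    rw [hg, map_sub]
    exact I.sub_mem (h n hn) (s16c_smul_mem I a₀ ha₀ P n)
  have hfac := qExpansion_eq_qExpansion_discriminant_mul g hg0
  rw [s16c_qExp_Delta] at hfac
  suffices hall : ∀ n, (qExpansion 1
      (CuspForm.discriminantEquiv (toCuspForm g hg0))).coeff n ∈ I by
    intro n
    have hfn : (qExpansion 1 f).coeff n
        = (qExpansion 1 g).coeff n + (a₀ • ι P).coeff n := by
      rw [hg, map_sub, sub_add_cancel]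
    rw [hfn, hfac]
    exact I.add_mem (s16c_mul_mem I _ _ hall n) (s16c_smul_mem I a₀ ha₀ P n)
  rcases lt_or_ge k 12 with hk12 | hk12
  · have hz : CuspForm.discriminantEquiv (toCuspForm g hg0) = 0 :=
      rank_zero_iff_forall_zero.mp (levelOne_neg_weight_rank_zero (by omega)) _
    rw [hz]
    intro n
    simp [qExpansion_zero]
  · have hcast : ((k : ℤ) - 12) = ((k - 12 : ℕ) : ℤ) := by omega
    have key := ih (k - 12) (by omega)
      (ModularForm.mcast hcast (CuspForm.discriminantEquiv (toCuspForm g hg0))) ?_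
    · simpa only [ModularForm.qExpansion_mcast] using key
    · intro n hn
      rw [ModularForm.qExpansion_mcast]
      refine s16c_div_mem I s16c_T s16c_T_coeff_zero s16c_T_coeff_one _ ((k - 12) / 12) ?_ n hn
      intro m hm
      rw [← hfac]
      exact hgle m (by omega)

/-- consumer form: a coefficient outside `I` forces one of the first `k/12 + 1` outside `I`. -/
theorem s16c_exists_le (I : AddSubgroup ℂ) {k : ℕ} (f : ModularForm 𝒮ℒ (k : ℤ)) (n₀ : ℕ)
    (hn₀ : (qExpansion 1 f).coeff n₀ ∉ I) : ∃ n ≤ k / 12, (qExpansion 1 f).coeff n ∉ I := by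
  by_contra hcon
  push Not at hcon
  exact hn₀ (s16c_coeff_mem I k f hcon n₀)

end Fermat.Agent.S16c
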