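/-
S16, stream [C]/(B-place): reduction of `B`-integral power series modulo the place.

`B : ValuationSubring ℂ`, `κ = IsLocalRing.ResidueField B`.
* `lvP_R B : Subring ℂ⟦X⟧` : power series all of whose coefficients lie in `B`
  (`= range (PowerSeries.map B.subtype)`);
* `lvP_lift` : the corresponding element of `B⟦X⟧`;
* `lvP_red B : ℂ⟦X⟧ → κ⟦X⟧` : TOTAL reduction map (`= map (residue B)` of the lift on `lvP_R B`),
  multiplicative/additive on `lvP_R B`;
* vanishing/order criteria in terms of the maximal ideal `lvP_mI B ⊆ ℂ`;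
* `lvP_sturm` : the level-one Sturm bound in this vocabulary.
-/
import Fermat.Agent.S16.LevelOne.Place
import Fermat.Agent.S16.LevelOne.Adapter

set_option autoImplicit false

open IsLocalRing UpperHalfPlane ModularForm ModularFormClass MatrixGroups

namespace Fermat.Agent.S16C

variable (B : ValuationSubring ℂ)

/-- Power series over `ℂ` with all coefficients in `B`. -/
noncomputable def lvP_R : Subring (PowerSeries ℂ) := (PowerSeries.map B.subtype).range

theorem lvP_map_subtype_injective : Function.Injective (PowerSeries.map B.subtype) := by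
  intro P Q h
  ext n
  have := congrArg (PowerSeries.coeff n) h
  rw [PowerSeries.coeff_map, PowerSeries.coeff_map] at this
  exact congrArg Subtype.val (B.subtype_injective this)

theorem lvP_mem_R_iff {f : PowerSeries ℂ} : f ∈ lvP_R B ↔ ∀ n, f.coeff n ∈ B := by
  constructor
  · rintro ⟨P, rfl⟩ n
    rw [PowerSeries.coeff_map]
    exact (P.coeff n).2
  · intro h
    refine ⟨PowerSeries.mk fun n => ⟨f.coeff n, h n⟩, ?_⟩
    ext n
    rw [PowerSeries.coeff_map, PowerSeries.coeff_mk]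
    rfl

/-- The lift of a `B`-integral power series to `B⟦X⟧`. -/
noncomputable def lvP_lift {f : PowerSeries ℂ} (hf : f ∈ lvP_R B) : PowerSeries B :=
  PowerSeries.mk fun n => ⟨f.coeff n, (lvP_mem_R_iff B).mp hf n⟩

theorem lvP_lift_map {f : PowerSeries ℂ} (hf : f ∈ lvP_R B) :
    (lvP_lift B hf).map B.subtype = f := by
  ext n
  rw [PowerSeries.coeff_map, lvP_lift, PowerSeries.coeff_mk]
  rfl

theorem lvP_map_mem_R (P : PowerSeries B) : P.map B.subtype ∈ lvP_R B := ⟨P, rfl⟩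

/-! ### Elements of `lvP_R B` -/

theorem lvP_C_mem_R {b : ℂ} (hb : b ∈ B) : PowerSeries.C b ∈ lvP_R B :=
  ⟨PowerSeries.C ⟨b, hb⟩, by rw [PowerSeries.map_C]; rfl⟩

theorem lvP_X_mem_R : (PowerSeries.X : PowerSeries ℂ) ∈ lvP_R B :=
  ⟨PowerSeries.X, PowerSeries.map_X _⟩

theorem lvP_smul_mem_R {b : ℂ} (hb : b ∈ B) {f : PowerSeries ℂ} (hf : f ∈ lvP_R B) :
    b • f ∈ lvP_R B := by
  rw [lvP_mem_R_iff] at hf ⊢
  intro n
  rw [PowerSeries.coeff_smul, smul_eq_mul]
  exact B.mul_mem _ _ hb (hf n)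

/-- Power series with integer coefficients are `B`-integral. -/
theorem lvP_map_int_mem_R (P : PowerSeries ℤ) : P.map (Int.castRingHom ℂ) ∈ lvP_R B := by
  rw [lvP_mem_R_iff]
  intro n
  rw [PowerSeries.coeff_map]
  exact lvP_int_mem B _

theorem lvP_rescale_mem_R {b : ℂ} (hb : b ∈ B) {f : PowerSeries ℂ} (hf : f ∈ lvP_R B) :
    PowerSeries.rescale b f ∈ lvP_R B := by
  rw [lvP_mem_R_iff] at hf ⊢
  intro n
  rw [PowerSeries.coeff_rescale]
  exact B.mul_mem _ _ (pow_mem hb n) (hf n)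

/-! ### The reduction map -/

/-- Reduction modulo the maximal ideal of `B` (coefficients outside `B` are sent to `0`). -/
noncomputable def lvP_red (f : PowerSeries ℂ) : PowerSeries (ResidueField B) :=
  PowerSeries.mk fun n =>
    haveI := Classical.dec (f.coeff n ∈ B)
    if h : f.coeff n ∈ B then residue B ⟨f.coeff n, h⟩ else 0

theorem lvP_red_map (P : PowerSeries B) :
    lvP_red B (P.map B.subtype) = P.map (residue B) := by
  ext n
  have h : (P.map B.subtype).coeff n ∈ B := by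
    rw [PowerSeries.coeff_map]; exact (P.coeff n).2
  rw [lvP_red, PowerSeries.coeff_mk, dif_pos h]
  have e : (⟨(P.map B.subtype).coeff n, h⟩ : B) = P.coeff n := by
    apply Subtype.ext
    change (P.map B.subtype).coeff n = _
    rw [PowerSeries.coeff_map]
    rfl
  rw [e, PowerSeries.coeff_map]

theorem lvP_red_eq_lift {f : PowerSeries ℂ} (hf : f ∈ lvP_R B) :
    lvP_red B f = (lvP_lift B hf).map (residue B) := by
  conv_lhs => rw [← lvP_lift_map B hf]
  exact lvP_red_map B _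

theorem lvP_red_coeff {f : PowerSeries ℂ} (hf : f ∈ lvP_R B) (n : ℕ) :
    (lvP_red B f).coeff n = residue B ⟨f.coeff n, (lvP_mem_R_iff B).mp hf n⟩ := by
  rw [lvP_red_eq_lift B hf, PowerSeries.coeff_map, lvP_lift, PowerSeries.coeff_mk]

theorem lvP_red_zero : lvP_red B 0 = 0 := by
  have := lvP_red_map B 0
  simpa using this

theorem lvP_red_one : lvP_red B 1 = 1 := by
  have := lvP_red_map B 1
  simpa using this

theorem lvP_red_X : lvP_red B PowerSeries.X = PowerSeries.X := by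
  have := lvP_red_map B PowerSeries.X
  simpa using this

theorem lvP_red_C {b : ℂ} (hb : b ∈ B) :
    lvP_red B (PowerSeries.C b) = PowerSeries.C (residue B ⟨b, hb⟩) := by
  have := lvP_red_map B (PowerSeries.C ⟨b, hb⟩)
  rw [PowerSeries.map_C, PowerSeries.map_C] at this
  exact this

theorem lvP_red_add {f g : PowerSeries ℂ} (hf : f ∈ lvP_R B) (hg : g ∈ lvP_R B) :
    lvP_red B (f + g) = lvP_red B f + lvP_red B g := by
  obtain ⟨P, rfl⟩ := hf
  obtain ⟨Q, rfl⟩ := hg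
  rw [← map_add, lvP_red_map, lvP_red_map, lvP_red_map, map_add]

theorem lvP_red_neg {f : PowerSeries ℂ} (hf : f ∈ lvP_R B) :
    lvP_red B (-f) = -lvP_red B f := by
  obtain ⟨P, rfl⟩ := hf
  rw [← map_neg, lvP_red_map, lvP_red_map, map_neg]

theorem lvP_red_sub {f g : PowerSeries ℂ} (hf : f ∈ lvP_R B) (hg : g ∈ lvP_R B) :
    lvP_red B (f - g) = lvP_red B f - lvP_red B g := by
  obtain ⟨P, rfl⟩ := hf
  obtain ⟨Q, rfl⟩ := hg
  rw [← map_sub, lvP_red_map, lvP_red_map, lvP_red_map, map_sub]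

theorem lvP_red_mul {f g : PowerSeries ℂ} (hf : f ∈ lvP_R B) (hg : g ∈ lvP_R B) :
    lvP_red B (f * g) = lvP_red B f * lvP_red B g := by
  obtain ⟨P, rfl⟩ := hf
  obtain ⟨Q, rfl⟩ := hg
  rw [← map_mul, lvP_red_map, lvP_red_map, lvP_red_map, map_mul]

theorem lvP_red_pow {f : PowerSeries ℂ} (hf : f ∈ lvP_R B) (n : ℕ) :
    lvP_red B (f ^ n) = lvP_red B f ^ n := by
  obtain ⟨P, rfl⟩ := hf
  rw [← map_pow, lvP_red_map, lvP_red_map, map_pow]

theorem lvP_red_prod {ι : Type*} (s : Finset ι) (f : ι → PowerSeries ℂ)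
    (hf : ∀ i ∈ s, f i ∈ lvP_R B) :
    lvP_red B (∏ i ∈ s, f i) = ∏ i ∈ s, lvP_red B (f i) := by
  classical
  induction s using Finset.induction_on with
  | empty => simp [lvP_red_one]
  | insert a s ha ih =>
    rw [Finset.prod_insert ha, Finset.prod_insert ha,
      lvP_red_mul B (hf a (Finset.mem_insert_self a s))
        (Subring.prod_mem _ fun i hi => hf i (Finset.mem_insert_of_mem hi)),
      ih fun i hi => hf i (Finset.mem_insert_of_mem hi)]

theorem lvP_red_sum {ι : Type*} (s : Finset ι) (f : ι → PowerSeries ℂ)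
    (hf : ∀ i ∈ s, f i ∈ lvP_R B) :
    lvP_red B (∑ i ∈ s, f i) = ∑ i ∈ s, lvP_red B (f i) := by
  classical
  induction s using Finset.induction_on with
  | empty => simp [lvP_red_zero]
  | insert a s ha ih =>
    rw [Finset.sum_insert ha, Finset.sum_insert ha,
      lvP_red_add B (hf a (Finset.mem_insert_self a s))
        (Subring.sum_mem _ fun i hi => hf i (Finset.mem_insert_of_mem hi)),
      ih fun i hi => hf i (Finset.mem_insert_of_mem hi)]

/-! ### Vanishing and order criteria -/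

theorem lvP_residue_eq_zero_iff (x : B) : residue B x = 0 ↔ (x : ℂ) ∈ lvP_mI B := by
  rw [residue_eq_zero_iff, lvP_mem_mI_iff, ValuationSubring.coe_mem_nonunits_iff]

theorem lvP_red_coeff_eq_zero_iff {f : PowerSeries ℂ} (hf : f ∈ lvP_R B) (n : ℕ) :
    (lvP_red B f).coeff n = 0 ↔ f.coeff n ∈ lvP_mI B := by
  rw [lvP_red_coeff B hf, lvP_residue_eq_zero_iff]

theorem lvP_red_eq_zero_iff {f : PowerSeries ℂ} (hf : f ∈ lvP_R B) :
    lvP_red B f = 0 ↔ ∀ n, f.coeff n ∈ lvP_mI B := by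
  constructor
  · intro h n
    rw [← lvP_red_coeff_eq_zero_iff B hf, h, map_zero]
  · intro h
    ext n
    rw [map_zero, lvP_red_coeff_eq_zero_iff B hf]
    exact h n

theorem lvP_red_ne_zero {f : PowerSeries ℂ} (hf : f ∈ lvP_R B) {n : ℕ}
    (hn : f.coeff n ∉ lvP_mI B) : lvP_red B f ≠ 0 :=
  fun h => hn ((lvP_red_eq_zero_iff B hf).mp h n)

theorem lvP_le_order_red_iff {f : PowerSeries ℂ} (hf : f ∈ lvP_R B) (d : ℕ) :
    (d : ℕ∞) ≤ (lvP_red B f).order ↔ ∀ n < d, f.coeff n ∈ lvP_mI B := by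
  constructor
  · intro h n hn
    rw [← lvP_red_coeff_eq_zero_iff B hf]
    exact PowerSeries.coeff_of_lt_order n (lt_of_lt_of_le (by exact_mod_cast hn) h)
  · intro h
    exact PowerSeries.nat_le_order _ d fun i hi => (lvP_red_coeff_eq_zero_iff B hf i).mpr (h i hi)

theorem lvP_order_red_eq {f : PowerSeries ℂ} (hf : f ∈ lvP_R B) (d : ℕ)
    (h1 : ∀ n < d, f.coeff n ∈ lvP_mI B) (h2 : f.coeff d ∉ lvP_mI B) :
    (lvP_red B f).order = d := by
  rw [PowerSeries.order_eq_nat]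
  exact ⟨fun h => h2 ((lvP_red_coeff_eq_zero_iff B hf d).mp h),
    fun i hi => (lvP_red_coeff_eq_zero_iff B hf i).mpr (h1 i hi)⟩

/-! ### Orders of products (`κ⟦X⟧` is a domain) -/

theorem lvP_order_red_mul {f g : PowerSeries ℂ} (hf : f ∈ lvP_R B) (hg : g ∈ lvP_R B) :
    (lvP_red B (f * g)).order = (lvP_red B f).order + (lvP_red B g).order := by
  rw [lvP_red_mul B hf hg, PowerSeries.order_mul]

theorem lvP_order_red_prod {ι : Type*} (s : Finset ι) (f : ι → PowerSeries ℂ)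
    (hf : ∀ i ∈ s, f i ∈ lvP_R B) :
    (lvP_red B (∏ i ∈ s, f i)).order = ∑ i ∈ s, (lvP_red B (f i)).order := by
  rw [lvP_red_prod B s f hf, PowerSeries.order_prod]

theorem lvP_red_mul_ne_zero {f g : PowerSeries ℂ} (hf : f ∈ lvP_R B) (hg : g ∈ lvP_R B)
    (hf0 : lvP_red B f ≠ 0) (hg0 : lvP_red B g ≠ 0) : lvP_red B (f * g) ≠ 0 := by
  rw [lvP_red_mul B hf hg]
  exact mul_ne_zero hf0 hg0

theorem lvP_red_prod_ne_zero {ι : Type*} (s : Finset ι) (f : ι → PowerSeries ℂ)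
    (hf : ∀ i ∈ s, f i ∈ lvP_R B) (hf0 : ∀ i ∈ s, lvP_red B (f i) ≠ 0) :
    lvP_red B (∏ i ∈ s, f i) ≠ 0 := by
  rw [lvP_red_prod B s f hf]
  exact Finset.prod_ne_zero_iff.mpr hf0

/-! ### Change of variable `X ↦ X ^ N` (period-`N` expansions of level-one forms) -/

section Expand

variable {f g : PowerSeries ℂ} {N : ℕ}

theorem lvP_expand_mem_R (h1 : ∀ m, g.coeff (N * m) = f.coeff m)
    (h2 : ∀ k, ¬ N ∣ k → g.coeff k = 0) (hf : f ∈ lvP_R B) : g ∈ lvP_R B := by
  rw [lvP_mem_R_iff] at hf ⊢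
  intro k
  by_cases hk : N ∣ k
  · obtain ⟨m, rfl⟩ := hk
    rw [h1]; exact hf m
  · rw [h2 k hk]; exact B.zero_mem

/-- If `g(X) = f(X ^ N)` then `N * d ≤ ord (ḡ)` implies `d ≤ ord (f̄)`. -/
theorem lvP_le_order_red_of_expand (hN : 0 < N) (h1 : ∀ m, g.coeff (N * m) = f.coeff m)
    (hf : f ∈ lvP_R B) (hg : g ∈ lvP_R B) {d : ℕ}
    (h : ((N * d : ℕ) : ℕ∞) ≤ (lvP_red B g).order) : (d : ℕ∞) ≤ (lvP_red B f).order := by
  rw [lvP_le_order_red_iff B hf]
  rw [lvP_le_order_red_iff B hg] at h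
  intro m hm
  rw [← h1]
  exact h _ (Nat.mul_lt_mul_of_pos_left hm hN)

/-- If `g(X) = f(X ^ N)` and `ḡ ≠ 0` then `f̄ ≠ 0`. -/
theorem lvP_red_ne_zero_of_expand (h1 : ∀ m, g.coeff (N * m) = f.coeff m)
    (h2 : ∀ k, ¬ N ∣ k → g.coeff k = 0) (hf : f ∈ lvP_R B)
    (hg0 : lvP_red B g ≠ 0) : lvP_red B f ≠ 0 := by
  intro h0
  apply hg0
  have hg : g ∈ lvP_R B := lvP_expand_mem_R B h1 h2 hf
  rw [lvP_red_eq_zero_iff B hg]
  rw [lvP_red_eq_zero_iff B hf] at h0
  intro k
  by_cases hk : N ∣ k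
  · obtain ⟨m, rfl⟩ := hk
    rw [h1]; exact h0 m
  · rw [h2 k hk]; exact (lvP_mI B).zero_mem

end Expand

/-! ### The level-one Sturm bound in this vocabulary -/

/-- **Level-one Sturm bound modulo the place `B`.** -/
theorem lvP_sturm {k : ℕ} (F : ModularForm 𝒮ℒ (k : ℤ)) (hF : qExpansion 1 F ∈ lvP_R B)
    (hne : lvP_red B (qExpansion 1 F) ≠ 0) :
    (lvP_red B (qExpansion 1 F)).order ≤ ((k / 12 : ℕ) : ℕ∞) := by
  rw [lvP_red_eq_lift B hF] at hne ⊢
  exact lvA_order_le B F (lvP_lift B hF) (lvP_lift_map B hF) hne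

/-- Numerical form: if the reduction is nonzero, some coefficient of index `≤ k/12` is a unit. -/
theorem lvP_sturm_exists {k : ℕ} (F : ModularForm 𝒮ℒ (k : ℤ)) (hF : qExpansion 1 F ∈ lvP_R B)
    (hne : lvP_red B (qExpansion 1 F) ≠ 0) :
    ∃ n ≤ k / 12, (qExpansion 1 F).coeff n ∉ lvP_mI B := by
  by_contra hcon
  push Not at hcon
  have h1 : (((k / 12 + 1 : ℕ)) : ℕ∞) ≤ (lvP_red B (qExpansion 1 F)).order :=
    (lvP_le_order_red_iff B hF _).mpr fun n hn => hcon n (by omega)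
  have h2 := lvP_sturm B F hF hne
  have h3 : (((k / 12 + 1 : ℕ)) : ℕ∞) ≤ ((k / 12 : ℕ) : ℕ∞) := h1.trans h2
  have h4 : k / 12 + 1 ≤ k / 12 := by exact_mod_cast h3
  omega

/-- Contrapositive: reduction of order `> k/12` vanishes. -/
theorem lvP_sturm' {k : ℕ} (F : ModularForm 𝒮ℒ (k : ℤ)) (hF : qExpansion 1 F ∈ lvP_R B)
    (h : ((k / 12 : ℕ) : ℕ∞) < (lvP_red B (qExpansion 1 F)).order) :
    lvP_red B (qExpansion 1 F) = 0 := by
  by_contra hne
  exact absurd (lvP_sturm B F hF hne) (not_le.mpr h)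

end Fermat.Agent.S16C
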