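import Mathlib

/-!
# S16 stream [C]: the integral (Miller-basis) Sturm bound at level one

`lvS_coeff_mem_of` : for an additive subgroup `I ≤ ℂ` and a level-one modular form `f` of weight
`k : ℕ`, if the `q`-coefficients `a_n(f)` lie in `I` for all `n ≤ k / 12`, then all of them do
(every `a_n(f)` is a `ℤ`-linear combination of `a_0(f), …, a_{⌊k/12⌋}(f)`).

The two arithmetic inputs are hypotheses here (discharged in `LevelOne/IntCoeff.lean`):
* `LvSDeltaInt`  : the `q`-coefficients of `Δ` are integers;
* `LvSUnitForms` : for every even `k ≠ 2` there is a level-one form of weight `k` with integral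
  `q`-coefficients and constant term `1` (e.g. `E₄^a E₆^b`, `4a + 6b = k`).
-/

set_option autoImplicit false

open UpperHalfPlane ModularForm SlashInvariantForm SlashInvariantFormClass ModularFormClass
  CuspFormClass MatrixGroups OnePoint Filter EisensteinSeries

namespace Fermat.Agent.S16C

/-! ## Power series lemmas -/

/-- integrality of all coefficients of a complex power series. -/
def LvSIntCoeff (D : PowerSeries ℂ) : Prop := ∀ n, ∃ m : ℤ, D.coeff n = (m : ℂ)

/-- (B) an integral power series times a series with coefficients in `I` has coefficients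
in `I`. -/
theorem lvS_mul_mem (I : AddSubgroup ℂ) {D H : PowerSeries ℂ} (hD : LvSIntCoeff D)
    (hH : ∀ n, H.coeff n ∈ I) : ∀ n, (D * H).coeff n ∈ I := by
  intro n
  rw [PowerSeries.coeff_mul]
  refine I.sum_mem fun x _ => ?_
  obtain ⟨m, hm⟩ := hD x.1
  rw [hm, ← zsmul_eq_mul]
  exact I.zsmul_mem (hH x.2) m

/-- (A) division by a series `D = X + …` with integral coefficients: if `G = D * H` has its
coefficients up to index `N + 1` in `I`, then `H` has its coefficients up to index `N` in `I`. -/
theorem lvS_div_mem (I : AddSubgroup ℂ) {D G H : PowerSeries ℂ} (hD : LvSIntCoeff D)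
    (hD0 : D.coeff 0 = 0) (hD1 : D.coeff 1 = 1) (hG : G = D * H) (N : ℕ)
    (hGN : ∀ m ≤ N + 1, G.coeff m ∈ I) : ∀ n ≤ N, H.coeff n ∈ I := by
  intro n
  induction n using Nat.strong_induction_on with
  | _ n ih =>
    intro hn
    have hGn : G.coeff (n + 1) ∈ I := hGN (n + 1) (by omega)
    rw [hG, PowerSeries.coeff_mul] at hGn
    -- peel off the terms `(0, n+1)` and `(1, n)` of the antidiagonal
    have hmem1 : ((1, n) : ℕ × ℕ) ∈ Finset.HasAntidiagonal.antidiagonal (n + 1) := by
      rw [Finset.HasAntidiagonal.mem_antidiagonal]; omega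
    rw [← Finset.add_sum_erase _ _ hmem1] at hGn
    simp only [hD1, one_mul] at hGn
    have hrest : ∑ x ∈ (Finset.HasAntidiagonal.antidiagonal (n + 1)).erase (1, n), D.coeff x.1 * H.coeff x.2 ∈ I := by
      refine I.sum_mem fun x hx => ?_
      rw [Finset.mem_erase, Finset.HasAntidiagonal.mem_antidiagonal] at hx
      obtain ⟨hne, hsum⟩ := hx
      obtain ⟨m, hm⟩ := hD x.1
      by_cases h0 : x.1 = 0
      · rw [h0, hD0, zero_mul]; exact I.zero_mem
      · have hx1 : 2 ≤ x.1 := by
          by_contra hlt
          have h1 : x.1 = 1 := by omega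
          apply hne
          ext
          · exact h1
          · simp only; omega
        have hx2 : x.2 < n := by omega
        rw [hm, ← zsmul_eq_mul]
        exact I.zsmul_mem (ih x.2 hx2 (by omega)) m
    have := I.sub_mem hGn hrest
    simpa using this

/-! ## The induction -/

local notation "Δ" => ModularForm.discriminant

/-- hypothesis: `Δ` has integral `q`-coefficients. -/
def LvSDeltaInt : Prop := LvSIntCoeff (qExpansion 1 Δ)

/-- hypothesis: in every even weight `k ≠ 2` there is a level-one form with integral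
`q`-coefficients and constant term `1`. -/
def LvSUnitForms : Prop :=
  ∀ k : ℕ, Even k → k ≠ 2 → ∃ F : ModularForm 𝒮ℒ (k : ℤ),
    (qExpansion 1 F).coeff 0 = 1 ∧ LvSIntCoeff (qExpansion 1 F)

theorem lvS_coeff_mem_of (hΔ : LvSDeltaInt) (hE : LvSUnitForms) (I : AddSubgroup ℂ) :
    ∀ (k : ℕ) (f : ModularForm 𝒮ℒ (k : ℤ)),
      (∀ n ≤ k / 12, (qExpansion 1 f).coeff n ∈ I) → ∀ n, (qExpansion 1 f).coeff n ∈ I := by
  intro k
  induction k using Nat.strong_induction_on with
  | _ k ih =>
    intro f hf n
    -- trivial cases: `f = 0`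
    have hzero : f = 0 → (qExpansion 1 f).coeff n ∈ I := by
      intro h0
      rw [h0]
      simp [UpperHalfPlane.qExpansion_zero]
    rcases Nat.even_or_odd k with hev | hodd
    swap
    · exact hzero (ModularForm.levelOne_odd_weight_eq_zero (by exact_mod_cast hodd) f)
    by_cases hk2 : k = 2
    · subst hk2
      exact hzero (rank_zero_iff_forall_zero.mp levelOne_weight_two_rank_zero f)
    obtain ⟨F, hF0, hFint⟩ := hE k hev hk2
    set a0 : ℂ := (qExpansion 1 f).coeff 0 with ha0
    have ha0I : a0 ∈ I := hf 0 (Nat.zero_le _)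
    set g : ModularForm 𝒮ℒ (k : ℤ) := f - a0 • F with hg
    have hqg : qExpansion 1 g = qExpansion 1 f - a0 • qExpansion 1 F := by
      rw [hg, FunLike.coe_sub, ModularForm.qExpansion_sub one_pos one_mem_strictPeriods_SL,
        FunLike.coe_smul, ModularForm.qExpansion_smul one_pos one_mem_strictPeriods_SL]
    have hgcoeff : ∀ m, (qExpansion 1 g).coeff m =
        (qExpansion 1 f).coeff m - a0 * (qExpansion 1 F).coeff m := by
      intro m
      rw [hqg, map_sub, PowerSeries.coeff_smul, smul_eq_mul]
    have hg0 : (qExpansion 1 g).coeff 0 = 0 := by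
      rw [hgcoeff, hF0, mul_one, ← ha0, sub_self]
    -- `a0 * (integer)` lies in `I`
    have hFmem : ∀ m, a0 * (qExpansion 1 F).coeff m ∈ I := by
      intro m
      obtain ⟨z, hz⟩ := hFint m
      rw [hz, mul_comm, ← zsmul_eq_mul]
      exact I.zsmul_mem ha0I z
    -- it suffices to treat `g`
    suffices hgn : (qExpansion 1 g).coeff n ∈ I by
      have : (qExpansion 1 f).coeff n =
          (qExpansion 1 g).coeff n + a0 * (qExpansion 1 F).coeff n := by
        rw [hgcoeff]; ring
      rw [this]
      exact I.add_mem hgn (hFmem n)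
    have hgle : ∀ m ≤ k / 12, (qExpansion 1 g).coeff m ∈ I := by
      intro m hm
      rw [hgcoeff]
      exact I.sub_mem (hf m hm) (hFmem m)
    -- divide by `Δ`
    set h := CuspForm.discriminantEquiv (toCuspForm g hg0) with hh
    have hfac : qExpansion 1 g = qExpansion 1 Δ * qExpansion 1 h :=
      qExpansion_eq_qExpansion_discriminant_mul g hg0
    have hD0 : (qExpansion 1 Δ).coeff 0 = 0 :=
      CuspFormClass.qExpansion_coeff_zero CuspForm.discriminant one_pos one_mem_strictPeriods_SL
    have hD1 : (qExpansion 1 Δ).coeff 1 = 1 := discriminant_qExpansion_coeff_one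
    rcases lt_or_ge k 12 with hk12 | hk12
    · -- weight `k - 12 < 0`: `h = 0`
      have hh0 : h = 0 :=
        rank_zero_iff_forall_zero.mp (levelOne_neg_weight_rank_zero (by omega)) h
      rw [hfac, hh0]
      simp [UpperHalfPlane.qExpansion_zero]
    · -- induction hypothesis at weight `k - 12`
      have hcast : ((k : ℤ) - 12) = ((k - 12 : ℕ) : ℤ) := by omega
      set h' : ModularForm 𝒮ℒ ((k - 12 : ℕ) : ℤ) := ModularForm.mcast hcast h with hh'
      have hqh' : qExpansion 1 h' = qExpansion 1 h := rfl
      have hdiv : ∀ m ≤ (k - 12) / 12, (qExpansion 1 h).coeff m ∈ I := by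
        apply lvS_div_mem I hΔ hD0 hD1 hfac ((k - 12) / 12)
        intro m hm
        exact hgle m (by omega)
      have hall : ∀ m, (qExpansion 1 h).coeff m ∈ I := by
        intro m
        rw [← hqh']
        exact ih (k - 12) (by omega) h' (by rw [hqh']; exact hdiv) m
      rw [hfac]
      exact lvS_mul_mem I hΔ hall n

/-- consumer form: a coefficient outside `I` forces one of index `≤ k / 12` outside `I`. -/
theorem lvS_exists_le_of (hΔ : LvSDeltaInt) (hE : LvSUnitForms) (I : AddSubgroup ℂ) {k : ℕ}
    (f : ModularForm 𝒮ℒ (k : ℤ)) {n₀ : ℕ} (hn₀ : (qExpansion 1 f).coeff n₀ ∉ I) :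
    ∃ n ≤ k / 12, (qExpansion 1 f).coeff n ∉ I := by
  by_contra hcon
  push Not at hcon
  exact hn₀ (lvS_coeff_mem_of hΔ hE I k f hcon n₀)

end Fermat.Agent.S16C
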